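import Mathlib

/-!
# Row LT, tower T7 -- asset T7.C3.A (helper402): twisted trace atoms

OFF-MAIN, Mathlib only; every proof is complete.

For the spectral side of `T7.TraceWordsRegC` / `TraceWordsQRegC` (`T7/Reg.lean` of helper797,
header: "why no polynomial factors in `m`", "summability").

## Statement (`twistedTraceAtoms402`)

`V` a finite-dimensional inner product space over `ℂ` (a block of cusp functions), `U : ι → End V`
a COMMUTING family (the operators `U_j`, `Z_j`, `Z_j⁻¹` at the places `o j` over the regular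
place, and any commuting generators outside `S'`), `σ : Equiv.Perm ι` (the action of the
automorphism on the generators) and `T : End V` with `T ∘ U a = U (σ a) ∘ T`
(`T = R(φ) ∘ R(σ)`, `R(φ)` commuting with the family).  Then there are an orthonormal basis `q`
of `V`, characters `χ i : ι → ℂ` and coefficients `t i` with

1. `tr (T ∘ U a₁ ∘ ⋯ ∘ U a_r) = ∑ i, t i · χ i a₁ ⋯ χ i a_r` for every word;
2. `t i = 0` or `t i = ⟪q i, T (q i)⟫` (summability: apply `T5.STFsigma` to the orthonormal
   sequence glued from the `q` of the blocks);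
3. if `t i ≠ 0`: `χ i ∘ σ = χ i`, and `χ i` is the character of a joint eigenvector in `V`.

## Proof

Induction on `dim V`.  Take a joint eigenvector `y` of the adjoints `(U a)†` (character `ψ`).
Case 1, `ψ ∘ σ = ψ`: the joint eigenspace of the adjoints is stable under `T†`; take an
eigenvector `y₁` of `T†` in it; the hyperplane `y₁ᗮ` is stable under `T` and the `U a`; the
atom of `y₁` has character `conj ψ` and coefficient `⟪y₁, T y₁⟫`; a joint eigenvector with
character `conj ψ` exists because `y₁` is orthogonal to the joint generalised eigenspaces of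
all other characters.  Case 2, `ψ ∘ σ ≠ ψ`: `V₁` = the sum of the joint eigenspaces of the
adjoints over the `σ`-orbit of `ψ`; `(T ∘ word)†` permutes the summands without fixed point, so
the diagonal coefficients of `T ∘ word` in any orthonormal basis of `V₁` sum to `0`; `V₁ᗮ` is
stable.
-/

set_option autoImplicit false

open scoped InnerProductSpace ComplexConjugate
open Module

noncomputable section

namespace Fermat.Agent.LT.T7.H402

/-! ## 1. Words -/

section Word

variable {ι : Type*} {V : Type*} [AddCommGroup V] [Module ℂ V]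

theorem wordOp_nil402 (U : ι → Module.End ℂ V) (x : V) :
    (([] : List ι).map U).prod x = x := by
  simp

theorem wordOp_cons402 (U : ι → Module.End ℂ V) (a : ι) (w : List ι) (x : V) :
    (((a :: w).map U).prod) x = U a ((w.map U).prod x) := by
  simp [Module.End.mul_apply]

/-- A joint eigenvector is an eigenvector of every word. -/
theorem wordOp_eigen402 (U : ι → Module.End ℂ V) (χ : ι → ℂ) (x : V)
    (hx : ∀ a, U a x = χ a • x) (w : List ι) :
    (w.map U).prod x = (w.map χ).prod • x := by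
  induction w with
  | nil => simp
  | cons a w ih =>
    rw [wordOp_cons402, ih, map_smul, hx, smul_smul, List.map_cons, List.prod_cons]
    rw [mul_comm]

/-- Words preserve invariant subspaces. -/
theorem wordOp_mem402 (U : ι → Module.End ℂ V) (H : Submodule ℂ V)
    (hH : ∀ a, ∀ v ∈ H, U a v ∈ H) (w : List ι) (x : V) (hx : x ∈ H) :
    (w.map U).prod x ∈ H := by
  induction w with
  | nil => simpa using hx
  | cons a w ih =>
    rw [wordOp_cons402]
    exact hH a _ ih

/-- Words of the restricted operators. -/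
theorem wordOp_restrict402 (U : ι → Module.End ℂ V) (H : Submodule ℂ V)
    (hH : ∀ a, ∀ v ∈ H, U a v ∈ H) (w : List ι) (x : H) :
    (((w.map (fun a => (U a).restrict (hH a))).prod x : H) : V) = (w.map U).prod (x : V) := by
  induction w with
  | nil => simp
  | cons a w ih =>
    rw [wordOp_cons402, wordOp_cons402, LinearMap.coe_restrict_apply, ih]

/-- A word commutes with every letter of a commuting family. -/
theorem wordOp_commute402 (U : ι → Module.End ℂ V) (hU : ∀ a b, Commute (U a) (U b))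
    (w : List ι) (a : ι) : Commute ((w.map U).prod) (U a) := by
  apply Commute.list_prod_left
  intro x hx
  obtain ⟨b, -, rfl⟩ := List.mem_map.mp hx
  exact hU b a

end Word

/-! ## 2. Joint eigenvectors of commuting families -/

section Joint

/-- **Lemma J.**  A commuting family of endomorphisms of a non-zero finite-dimensional complex
vector space has a joint eigenvector. -/
theorem exists_joint_eigenvector402.{u, v} {ι : Type v} :
    ∀ (d : ℕ) (V : Type u) [AddCommGroup V] [Module ℂ V] [FiniteDimensional ℂ V],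
      finrank ℂ V = d → 0 < d →
      ∀ U : ι → Module.End ℂ V, (∀ a b, Commute (U a) (U b)) →
        ∃ (x : V) (χ : ι → ℂ), x ≠ 0 ∧ ∀ a, U a x = χ a • x := by
  intro d
  induction d using Nat.strong_induction_on with
  | _ d ih =>
    intro V _ _ _ hd hpos U hU
    have hnt : Nontrivial V := Module.finrank_pos_iff.mp (hd ▸ hpos)
    by_cases hsc : ∀ a, ∃ c : ℂ, ∀ x, U a x = c • x
    · choose χ hχ using hsc
      obtain ⟨x, hx⟩ := exists_ne (0 : V)
      exact ⟨x, χ, hx, fun a => hχ a x⟩
    · push Not at hsc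
      obtain ⟨a, ha⟩ := hsc
      obtain ⟨μ, hμ⟩ := Module.End.exists_eigenvalue (U a)
      set E := Module.End.eigenspace (U a) μ with hE
      have hEbot : E ≠ ⊥ := hμ
      have hEtop : E ≠ ⊤ := by
        intro h
        obtain ⟨x, hx⟩ := ha μ
        apply hx
        have : x ∈ E := by rw [h]; exact Submodule.mem_top
        exact Module.End.mem_eigenspace_iff.mp this
      have hinv : ∀ b, ∀ v ∈ E, U b v ∈ E := by
        intro b v hv
        rw [hE, Module.End.mem_eigenspace_iff] at hv ⊢
        have := (hU a b).eq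
        calc U a (U b v) = (U a * U b) v := rfl
          _ = (U b * U a) v := by rw [this]
          _ = U b (U a v) := rfl
          _ = μ • U b v := by rw [hv, map_smul]
      have hlt : finrank ℂ E < d := hd ▸ Submodule.finrank_lt hEtop
      have hEpos : 0 < finrank ℂ E := by
        rw [Module.finrank_pos_iff]
        exact Submodule.nontrivial_iff_ne_bot.mpr hEbot
      obtain ⟨x, χ, hx, hχ⟩ := ih (finrank ℂ E) hlt E rfl hEpos
        (fun b => (U b).restrict (hinv b))
        (fun b c => by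
          apply LinearMap.ext
          intro v
          apply Subtype.ext
          simp only [Module.End.mul_apply, LinearMap.coe_restrict_apply]
          exact congrArg (fun f : Module.End ℂ V => f (v : V)) (hU b c).eq)
      refine ⟨(x : V), χ, fun h => hx (Subtype.ext h), fun b => ?_⟩
      have := congrArg (Subtype.val) (hχ b)
      simpa using this


/-- Powers of `U - c` on an eigenvector. -/
theorem sub_smul_pow_eigen402 {V : Type*} [AddCommGroup V] [Module ℂ V] (f : Module.End ℂ V)
    (c c' : ℂ) (x : V) (hx : f x = c' • x) (k : ℕ) :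
    ((f - c • (1 : Module.End ℂ V)) ^ k) x = (c' - c) ^ k • x := by
  induction k with
  | zero => simp
  | succ k ih =>
    rw [pow_succ', Module.End.mul_apply, ih, map_smul, LinearMap.sub_apply, LinearMap.smul_apply,
      Module.End.one_apply, hx, ← sub_smul, smul_smul, pow_succ]

/-- Powers of `U - c` against a left eigenvector. -/
theorem inner_sub_smul_pow402 {V : Type*} [NormedAddCommGroup V] [InnerProductSpace ℂ V]
    (f : Module.End ℂ V) (c κ : ℂ) (y : V) (hy : ∀ u, ⟪y, f u⟫_ℂ = κ * ⟪y, u⟫_ℂ) (k : ℕ)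
    (v : V) :
    ⟪y, ((f - c • (1 : Module.End ℂ V)) ^ k) v⟫_ℂ = (κ - c) ^ k * ⟪y, v⟫_ℂ := by
  induction k generalizing v with
  | zero => simp
  | succ k ih =>
    rw [pow_succ, Module.End.mul_apply, ih, LinearMap.sub_apply, LinearMap.smul_apply,
      Module.End.one_apply, inner_sub_right, inner_smul_right, hy]
    ring

/-- **Lemma L'.**  If `y ≠ 0` is a LEFT joint eigenvector of a commuting family with character
`κ` (`⟪y, U a u⟫ = κ a ⟪y, u⟫` for all `u`), then the family has a joint eigenvector with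
character `κ`. -/
theorem exists_eigenvector_of_left402 {ι : Type*} {V : Type*} [NormedAddCommGroup V]
    [InnerProductSpace ℂ V] [FiniteDimensional ℂ V] (U : ι → Module.End ℂ V)
    (hU : ∀ a b, Commute (U a) (U b)) (κ : ι → ℂ) (y : V) (hy0 : y ≠ 0)
    (hy : ∀ a u, ⟪y, U a u⟫_ℂ = κ a * ⟪y, u⟫_ℂ) :
    ∃ x : V, x ≠ 0 ∧ ∀ a, U a x = κ a • x := by
  classical
  set W : (ι → ℂ) → Submodule ℂ V := fun χ => ⨅ a, (U a).maxGenEigenspace (χ a) with hW
  have htop : ⨆ χ, W χ = ⊤ :=
    Module.End.iSup_iInf_maxGenEigenspace_eq_top_of_iSup_maxGenEigenspace_eq_top_of_commute U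
      (fun a b _ => hU a b) (fun a => Module.End.iSup_maxGenEigenspace_eq_top (U a))
  -- the joint generalised eigenspace of `κ` is not zero
  have hne : W κ ≠ ⊥ := by
    intro hbot
    have hle : ∀ χ, W χ ≤ (Submodule.span ℂ {y})ᗮ := by
      intro χ
      by_cases hχ : χ = κ
      · rw [hχ, hbot]; exact bot_le
      · obtain ⟨a, ha⟩ := Function.ne_iff.mp hχ
        intro v hv
        rw [Submodule.mem_orthogonal_singleton_iff_inner_right]
        have hv' := (Module.End.mem_iInf_maxGenEigenspace_iff U χ v).mp hv a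
        obtain ⟨k, hk⟩ := hv'
        have := inner_sub_smul_pow402 (U a) (χ a) (κ a) y (hy a) k v
        rw [hk, inner_zero_right] at this
        have h2 : (κ a - χ a) ^ k ≠ 0 := pow_ne_zero _ (sub_ne_zero.mpr (Ne.symm ha))
        exact (mul_eq_zero.mp this.symm).resolve_left h2
    have h1 : (⊤ : Submodule ℂ V) ≤ (Submodule.span ℂ {y})ᗮ := by
      rw [← htop]; exact iSup_le hle
    have h2 : y ∈ (Submodule.span ℂ {y})ᗮ := h1 Submodule.mem_top
    rw [Submodule.mem_orthogonal_singleton_iff_inner_right] at h2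
    exact hy0 (inner_self_eq_zero.mp h2)
  -- a joint eigenvector inside
  have hinv : ∀ b, ∀ v ∈ W κ, U b v ∈ W κ := by
    intro b v hv
    rw [hW] at hv ⊢
    simp only [Submodule.mem_iInf] at hv ⊢
    intro a
    exact Module.End.mapsTo_maxGenEigenspace_of_comm (hU a b) (κ a) (hv a)
  have hpos : 0 < finrank ℂ (W κ) := by
    rw [Module.finrank_pos_iff]
    exact Submodule.nontrivial_iff_ne_bot.mpr hne
  obtain ⟨x, χ', hx, hχ'⟩ := exists_joint_eigenvector402 (finrank ℂ (W κ)) (W κ) rfl hpos
    (fun b => (U b).restrict (hinv b))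
    (fun b c => by
      apply LinearMap.ext
      intro v
      apply Subtype.ext
      simp only [Module.End.mul_apply, LinearMap.coe_restrict_apply]
      exact congrArg (fun f : Module.End ℂ V => f (v : V)) (hU b c).eq)
  have hx0 : (x : V) ≠ 0 := fun h => hx (Subtype.ext h)
  have hxe : ∀ a, U a (x : V) = χ' a • (x : V) := by
    intro a
    have := congrArg (Subtype.val) (hχ' a)
    simpa using this
  refine ⟨(x : V), hx0, fun a => ?_⟩
  have hmem := (Module.End.mem_iInf_maxGenEigenspace_iff U κ (x : V)).mp x.2 a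
  obtain ⟨k, hk⟩ := hmem
  rw [sub_smul_pow_eigen402 (U a) (κ a) (χ' a) (x : V) (hxe a) k] at hk
  have h3 : (χ' a - κ a) ^ k = 0 := (smul_eq_zero.mp hk).resolve_right hx0
  have h4 : χ' a = κ a := sub_eq_zero.mp (pow_eq_zero_iff (by
    intro h0
    rw [h0, pow_zero] at h3
    exact one_ne_zero h3) |>.mp h3)
  rw [← h4]
  exact hxe a

end Joint

/-! ## 3. Atoms -/

section Atoms

variable {ι : Type*} {V : Type*} [NormedAddCommGroup V] [InnerProductSpace ℂ V]

/-- **Atoms** of `(U, T)` carried by an orthonormal family `q`: the diagonal coefficients of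
`T ∘ word` in `q` are sums of the values of characters; the coefficient of an atom is `0` or the
diagonal coefficient of `T` at `q i`; an atom with non-zero coefficient has a `σ`-invariant
character which is the character of a TRUE joint eigenvector. -/
structure IsAtoms402 (σ : Equiv.Perm ι) (U : ι → Module.End ℂ V) (T : Module.End ℂ V)
    {n : Type} [Fintype n] (q : n → V) (χ : n → ι → ℂ) (t : n → ℂ) : Prop where
  orth : Orthonormal ℂ q
  trace : ∀ w : List ι,
    ∑ i, ⟪q i, T ((w.map U).prod (q i))⟫_ℂ = ∑ i, t i * (w.map (χ i)).prod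
  diag : ∀ i, t i = 0 ∨ t i = ⟪q i, T (q i)⟫_ℂ
  eig : ∀ i, t i ≠ 0 →
    (∀ a, χ i (σ a) = χ i a) ∧ ∃ x : V, x ≠ 0 ∧ ∀ a, U a x = χ i a • x

/-- The output of one step of the induction: a non-zero subspace `V₁` whose orthogonal
complement is invariant, with atoms carried by an orthonormal basis of `V₁`. -/
def StepOut402 (σ : Equiv.Perm ι) (U : ι → Module.End ℂ V) (T : Module.End ℂ V) : Prop :=
  ∃ V₁ : Submodule ℂ V, V₁ ≠ ⊥ ∧ (∀ a, ∀ v ∈ V₁ᗮ, U a v ∈ V₁ᗮ) ∧ (∀ v ∈ V₁ᗮ, T v ∈ V₁ᗮ) ∧
    ∃ (m : Type) (_ : Fintype m) (q₁ : m → V) (χ₁ : m → ι → ℂ) (t₁ : m → ℂ),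
      IsAtoms402 σ U T q₁ χ₁ t₁ ∧ Submodule.span ℂ (Set.range q₁) = V₁

/-- A left joint eigenvector pairs with words through its character. -/
theorem inner_wordOp_left402 (U : ι → Module.End ℂ V) (κ : ι → ℂ) (y : V)
    (hy : ∀ a u, ⟪y, U a u⟫_ℂ = κ a * ⟪y, u⟫_ℂ) (w : List ι) (u : V) :
    ⟪y, (w.map U).prod u⟫_ℂ = (w.map κ).prod * ⟪y, u⟫_ℂ := by
  induction w with
  | nil => simp
  | cons a w ih =>
    rw [wordOp_cons402, hy, ih, List.map_cons, List.prod_cons, mul_assoc]

/-- `T ∘ word` intertwines `U a` and `U (σ a)`. -/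
theorem intertwine_word402 (σ : Equiv.Perm ι) (U : ι → Module.End ℂ V)
    (hU : ∀ a b, Commute (U a) (U b)) (T : Module.End ℂ V)
    (hT : ∀ a, T * U a = U (σ a) * T) (w : List ι) (a : ι) :
    (T * (w.map U).prod) * U a = U (σ a) * (T * (w.map U).prod) := by
  rw [mul_assoc, (wordOp_commute402 U hU w a).eq, ← mul_assoc, hT, mul_assoc]

variable [FiniteDimensional ℂ V]

/-- **Case 1**: a normalised joint eigenvector of the adjoints, with `σ`-invariant character,
which is an eigenvector of the adjoint of `T`. -/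
theorem stepOut_case1_402 (σ : Equiv.Perm ι) (U : ι → Module.End ℂ V)
    (hU : ∀ a b, Commute (U a) (U b)) (T : Module.End ℂ V)
    (y : V) (hy1 : ‖y‖ = 1) (ψ : ι → ℂ) (θ : ℂ)
    (hy : ∀ a, LinearMap.adjoint (U a) y = ψ a • y) (hθ : LinearMap.adjoint T y = θ • y)
    (hψ : ∀ a, ψ (σ a) = ψ a) : StepOut402 σ U T := by
  have hy0 : y ≠ 0 := by
    intro h
    rw [h, norm_zero] at hy1
    exact zero_ne_one hy1
  have hyy : ⟪y, y⟫_ℂ = 1 := by
    rw [inner_self_eq_norm_sq_to_K, hy1]; simp
  have hUl : ∀ a u, ⟪y, U a u⟫_ℂ = conj (ψ a) * ⟪y, u⟫_ℂ := by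
    intro a u
    rw [← LinearMap.adjoint_inner_left, hy, inner_smul_left]
  have hTl : ∀ u, ⟪y, T u⟫_ℂ = conj θ * ⟪y, u⟫_ℂ := by
    intro u
    rw [← LinearMap.adjoint_inner_left, hθ, inner_smul_left]
  refine ⟨Submodule.span ℂ {y}, ?_, ?_, ?_, Unit, inferInstance, fun _ => y,
    fun _ a => conj (ψ a), fun _ => conj θ, ⟨?_, ?_, ?_, ?_⟩, ?_⟩
  · intro h
    have : y ∈ (⊥ : Submodule ℂ V) := h ▸ Submodule.mem_span_singleton_self y
    exact hy0 ((Submodule.mem_bot ℂ).mp this)
  · intro a v hv
    rw [Submodule.mem_orthogonal_singleton_iff_inner_right] at hv ⊢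
    rw [hUl, hv, mul_zero]
  · intro v hv
    rw [Submodule.mem_orthogonal_singleton_iff_inner_right] at hv ⊢
    rw [hTl, hv, mul_zero]
  · rw [orthonormal_iff_ite]
    intro i j
    rw [if_pos (Subsingleton.elim i j)]
    exact hyy
  · intro w
    simp only [Finset.univ_unique, Finset.sum_singleton]
    rw [hTl, inner_wordOp_left402 U (fun a => conj (ψ a)) y hUl, hyy, mul_one]
  · intro i
    right
    rw [hTl, hyy, mul_one]
  · intro i _
    refine ⟨fun a => by rw [hψ], ?_⟩
    exact exists_eigenvector_of_left402 U hU (fun a => conj (ψ a)) y hy0 hUl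
  · simp

/-! ### Case 2: a joint eigenvector of the adjoints whose character is not `σ`-invariant -/

/-- The joint eigenspace of the adjoints for the character `χ`. -/
def adjEig402 (U : ι → Module.End ℂ V) (χ : ι → ℂ) : Submodule ℂ V :=
  ⨅ a, Module.End.eigenspace (LinearMap.adjoint (U a)) (χ a)

theorem mem_adjEig402 (U : ι → Module.End ℂ V) (χ : ι → ℂ) (y : V) :
    y ∈ adjEig402 U χ ↔ ∀ a, LinearMap.adjoint (U a) y = χ a • y := by
  simp [adjEig402, Submodule.mem_iInf]

/-- The orbit of a character under `σ`. -/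
def orbit402 (σ : Equiv.Perm ι) (ψ : ι → ℂ) : Set (ι → ℂ) :=
  {χ | ∃ k : ℤ, χ = ψ ∘ ⇑(σ ^ k)}

theorem self_mem_orbit402 (σ : Equiv.Perm ι) (ψ : ι → ℂ) : ψ ∈ orbit402 σ ψ :=
  ⟨0, by ext a; simp⟩

theorem comp_mem_orbit402 (σ : Equiv.Perm ι) (ψ χ : ι → ℂ) (h : χ ∈ orbit402 σ ψ) :
    χ ∘ ⇑σ ∈ orbit402 σ ψ := by
  obtain ⟨k, rfl⟩ := h
  refine ⟨k + 1, ?_⟩
  ext a
  simp only [Function.comp_apply]
  rw [zpow_add_one, Equiv.Perm.mul_apply]

theorem comp_ne_of_mem_orbit402 (σ : Equiv.Perm ι) (ψ χ : ι → ℂ) (hψ : ψ ∘ ⇑σ ≠ ψ)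
    (h : χ ∈ orbit402 σ ψ) : χ ∘ ⇑σ ≠ χ := by
  obtain ⟨k, rfl⟩ := h
  intro hc
  apply hψ
  ext b
  have h1 := congrFun hc ((σ ^ k)⁻¹ b)
  simp only [Function.comp_apply] at h1 ⊢
  have h2 : (σ ^ k) (σ ((σ ^ k)⁻¹ b)) = σ b := by
    have : σ ^ k * σ * (σ ^ k)⁻¹ = σ := by
      rw [(Commute.zpow_self σ k).eq, mul_assoc, mul_inv_cancel, mul_one]
    calc (σ ^ k) (σ ((σ ^ k)⁻¹ b)) = (σ ^ k * σ * (σ ^ k)⁻¹) b := rfl
      _ = σ b := by rw [this]
  have h3 : (σ ^ k) ((σ ^ k)⁻¹ b) = b := by
    calc (σ ^ k) ((σ ^ k)⁻¹ b) = (σ ^ k * (σ ^ k)⁻¹) b := rfl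
      _ = b := by rw [mul_inv_cancel]; rfl
  rw [h2, h3] at h1
  exact h1

/-- The adjoints commute. -/
theorem adjoint_commute402 (U : ι → Module.End ℂ V) (hU : ∀ a b, Commute (U a) (U b))
    (a b : ι) : Commute (LinearMap.adjoint (U a)) (LinearMap.adjoint (U b)) := by
  change LinearMap.adjoint (U a) * LinearMap.adjoint (U b)
    = LinearMap.adjoint (U b) * LinearMap.adjoint (U a)
  rw [Module.End.mul_eq_comp, Module.End.mul_eq_comp, ← LinearMap.adjoint_comp,
    ← LinearMap.adjoint_comp, ← Module.End.mul_eq_comp, ← Module.End.mul_eq_comp, (hU b a).eq]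

/-- The adjoint of an intertwiner maps joint eigenspaces of the adjoints to joint eigenspaces. -/
theorem adjoint_mem_adjEig402 (σ : Equiv.Perm ι) (U : ι → Module.End ℂ V)
    (X : Module.End ℂ V) (hX : ∀ a, X * U a = U (σ a) * X) (χ : ι → ℂ) (v : V)
    (hv : v ∈ adjEig402 U χ) : LinearMap.adjoint X v ∈ adjEig402 U (χ ∘ ⇑σ) := by
  rw [mem_adjEig402] at hv ⊢
  intro a
  have h1 : LinearMap.adjoint (U a) ∘ₗ LinearMap.adjoint X
      = LinearMap.adjoint X ∘ₗ LinearMap.adjoint (U (σ a)) := by
    rw [← LinearMap.adjoint_comp, ← LinearMap.adjoint_comp, ← Module.End.mul_eq_comp,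
      ← Module.End.mul_eq_comp, hX]
  have h2 := congrArg (fun f : V →ₗ[ℂ] V => f v) h1
  simp only [LinearMap.comp_apply] at h2
  rw [h2, hv, map_smul]
  rfl

/-- The sum of the joint eigenspaces of the adjoints over the orbit of `ψ`. -/
def orbitSum402 (σ : Equiv.Perm ι) (U : ι → Module.End ℂ V) (ψ : ι → ℂ) : Submodule ℂ V :=
  ⨆ χ ∈ orbit402 σ ψ, adjEig402 U χ

theorem adjoint_mem_orbitSum402 (σ : Equiv.Perm ι) (U : ι → Module.End ℂ V) (ψ : ι → ℂ)
    (X : Module.End ℂ V) (hX : ∀ a, X * U a = U (σ a) * X) (v : V)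
    (hv : v ∈ orbitSum402 σ U ψ) : LinearMap.adjoint X v ∈ orbitSum402 σ U ψ := by
  have hle : orbitSum402 σ U ψ ≤ (orbitSum402 σ U ψ).comap (LinearMap.adjoint X) := by
    apply iSup₂_le
    intro χ hχ u hu
    rw [Submodule.mem_comap]
    exact (le_biSup (adjEig402 U) (comp_mem_orbit402 σ ψ χ hχ))
      (adjoint_mem_adjEig402 σ U X hX χ u hu)
  exact hle hv

theorem adjointU_mem_orbitSum402 (σ : Equiv.Perm ι) (U : ι → Module.End ℂ V) (ψ : ι → ℂ)
    (a : ι) (v : V) (hv : v ∈ orbitSum402 σ U ψ) :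
    LinearMap.adjoint (U a) v ∈ orbitSum402 σ U ψ := by
  have hle : orbitSum402 σ U ψ ≤ (orbitSum402 σ U ψ).comap (LinearMap.adjoint (U a)) := by
    apply iSup₂_le
    intro χ hχ u hu
    rw [Submodule.mem_comap]
    have hu' := (mem_adjEig402 U χ u).mp hu a
    rw [hu']
    exact Submodule.smul_mem _ _ ((le_biSup (adjEig402 U) hχ) hu)
  exact hle hv

/-- If `K` is invariant under the adjoint of `X`, then `Kᗮ` is invariant under `X`. -/
theorem mem_orthogonal_of_adjoint402 (K : Submodule ℂ V) (X : Module.End ℂ V)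
    (hK : ∀ v ∈ K, LinearMap.adjoint X v ∈ K) (v : V) (hv : v ∈ Kᗮ) : X v ∈ Kᗮ := by
  rw [Submodule.mem_orthogonal] at hv ⊢
  intro u hu
  rw [← LinearMap.adjoint_inner_left]
  exact hv _ (hK u hu)

/-- The joint eigenspaces of the adjoints over the orbit are independent. -/
theorem adjEig_indep402 (σ : Equiv.Perm ι) (U : ι → Module.End ℂ V)
    (hU : ∀ a b, Commute (U a) (U b)) (ψ : ι → ℂ) :
    iSupIndep (fun i : orbit402 σ ψ => adjEig402 U (i : ι → ℂ)) := by
  have h1 : iSupIndep fun χ : ι → ℂ =>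
      ⨅ a, Module.End.maxGenEigenspace (LinearMap.adjoint (U a)) (χ a) :=
    Module.End.independent_iInf_maxGenEigenspace_of_forall_mapsTo
      (fun a => (LinearMap.adjoint (U a) : Module.End ℂ V))
      (fun i j φ => Module.End.mapsTo_maxGenEigenspace_of_comm (adjoint_commute402 U hU j i) φ)
  have h2 : iSupIndep (adjEig402 U) :=
    h1.mono (fun χ => iInf_mono fun a => Module.End.eigenspace_le_maxGenEigenspace)
  exact h2.comp Subtype.val_injective

/-- **The trace of the adjoint of an intertwiner on the orbit sum vanishes** when the character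
is not `σ`-invariant. -/
theorem trace_restrict_orbitSum402 (σ : Equiv.Perm ι) (U : ι → Module.End ℂ V)
    (hU : ∀ a b, Commute (U a) (U b)) (ψ : ι → ℂ) (hψ : ψ ∘ ⇑σ ≠ ψ)
    (X : Module.End ℂ V) (hX : ∀ a, X * U a = U (σ a) * X) :
    LinearMap.trace ℂ (orbitSum402 σ U ψ)
      ((LinearMap.adjoint X).restrict (adjoint_mem_orbitSum402 σ U ψ X hX)) = 0 := by
  classical
  have hint := DirectSum.isInternal_biSup_submodule_of_iSupIndep (orbit402 σ ψ)
    (adjEig_indep402 σ U hU ψ)
  refine LinearMap.trace_eq_zero_of_mapsTo_ne hint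
    (fun i => ⟨(i : ι → ℂ) ∘ ⇑σ, comp_mem_orbit402 σ ψ i i.2⟩) ?_ ?_
  · intro i h
    exact comp_ne_of_mem_orbit402 σ ψ i hψ i.2 (congrArg Subtype.val h)
  · intro i v hv
    exact adjoint_mem_adjEig402 σ U X hX i v hv

/-- **Case 2**: a joint eigenvector of the adjoints whose character is not `σ`-invariant. -/
theorem stepOut_case2_402 (σ : Equiv.Perm ι) (U : ι → Module.End ℂ V)
    (hU : ∀ a b, Commute (U a) (U b)) (T : Module.End ℂ V)
    (hT : ∀ a, T * U a = U (σ a) * T)
    (y : V) (hy0 : y ≠ 0) (ψ : ι → ℂ)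
    (hy : ∀ a, LinearMap.adjoint (U a) y = ψ a • y) (hψ : ψ ∘ ⇑σ ≠ ψ) :
    StepOut402 σ U T := by
  set V₁ := orbitSum402 σ U ψ with hV₁
  set q' := stdOrthonormalBasis ℂ V₁ with hq'
  have hyV : y ∈ V₁ :=
    (le_biSup (adjEig402 U) (self_mem_orbit402 σ ψ)) ((mem_adjEig402 U ψ y).mpr hy)
  refine ⟨V₁, ?_, ?_, ?_, Fin (finrank ℂ V₁), inferInstance, fun j => (q' j : V),
    fun _ _ => 0, fun _ => 0, ⟨?_, ?_, ?_, ?_⟩, ?_⟩
  · intro h
    rw [h] at hyV
    exact hy0 ((Submodule.mem_bot ℂ).mp hyV)
  · intro a v hv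
    exact mem_orthogonal_of_adjoint402 V₁ (U a)
      (fun u hu => adjointU_mem_orbitSum402 σ U ψ a u hu) v hv
  · intro v hv
    exact mem_orthogonal_of_adjoint402 V₁ T
      (fun u hu => adjoint_mem_orbitSum402 σ U ψ T hT u hu) v hv
  · exact q'.orthonormal.comp_linearIsometry V₁.subtypeₗᵢ
  · intro w
    have hX := intertwine_word402 σ U hU T hT w
    have htr := trace_restrict_orbitSum402 σ U hU ψ hψ (T * (w.map U).prod) hX
    rw [LinearMap.trace_eq_sum_inner _ q'] at htr
    have hterm : ∀ j, ⟪q' j, ((LinearMap.adjoint (T * (w.map U).prod)).restrict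
        (adjoint_mem_orbitSum402 σ U ψ (T * (w.map U).prod) hX)) (q' j)⟫_ℂ
        = conj ⟪(q' j : V), T ((w.map U).prod (q' j : V))⟫_ℂ := by
      intro j
      rw [Submodule.coe_inner, LinearMap.coe_restrict_apply, LinearMap.adjoint_inner_right,
        inner_conj_symm]
      rfl
    simp only [hterm] at htr
    rw [← map_sum] at htr
    have h0 : ∑ j, ⟪(q' j : V), T ((w.map U).prod (q' j : V))⟫_ℂ = 0 := by
      have := congrArg conj htr
      simpa using this
    rw [h0]
    simp
  · intro i
    left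
    rfl
  · intro i hi
    exact absurd rfl hi
  · have h1 : Set.range (fun j => (q' j : V)) = V₁.subtype '' Set.range q' := by
      rw [← Set.range_comp]
      rfl
    rw [h1, Submodule.span_image, ← OrthonormalBasis.coe_toBasis, Basis.span_eq,
      Submodule.map_subtype_top]

/-! ### One step -/

/-- **Lemma Y.**  On a non-zero space there is a step. -/
theorem stepOut402 (σ : Equiv.Perm ι) (U : ι → Module.End ℂ V)
    (hU : ∀ a b, Commute (U a) (U b)) (T : Module.End ℂ V)
    (hT : ∀ a, T * U a = U (σ a) * T) (hpos : 0 < finrank ℂ V) : StepOut402 σ U T := by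
  obtain ⟨y, ψ, hy0, hy⟩ := exists_joint_eigenvector402 (finrank ℂ V) V rfl hpos
    (fun a => (LinearMap.adjoint (U a) : Module.End ℂ V)) (adjoint_commute402 U hU)
  by_cases hψ : ψ ∘ ⇑σ = ψ
  · -- Case 1
    have hE : ∀ v ∈ adjEig402 U ψ, LinearMap.adjoint T v ∈ adjEig402 U ψ := by
      intro v hv
      have := adjoint_mem_adjEig402 σ U T hT ψ v hv
      rwa [hψ] at this
    have hyE : y ∈ adjEig402 U ψ := (mem_adjEig402 U ψ y).mpr hy
    have hnt : Nontrivial (adjEig402 U ψ) :=
      ⟨⟨⟨y, hyE⟩, 0, fun h => hy0 (congrArg Subtype.val h)⟩⟩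
    obtain ⟨θ, hθ⟩ := Module.End.exists_eigenvalue
      (((LinearMap.adjoint T : Module.End ℂ V).restrict hE : Module.End ℂ (adjEig402 U ψ)))
    obtain ⟨z, hz⟩ := hθ.exists_hasEigenvector
    have hz0 : (z : V) ≠ 0 := fun h => hz.2 (Subtype.ext h)
    have hzT : LinearMap.adjoint T (z : V) = θ • (z : V) := by
      have := congrArg Subtype.val (Module.End.mem_eigenspace_iff.mp hz.1)
      simpa using this
    have hzU : ∀ a, LinearMap.adjoint (U a) (z : V) = ψ a • (z : V) :=
      (mem_adjEig402 U ψ (z : V)).mp z.2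
    have hn : ‖(z : V)‖ ≠ 0 := norm_ne_zero_iff.mpr hz0
    set c : ℂ := ((‖(z : V)‖⁻¹ : ℝ) : ℂ) with hc
    refine stepOut_case1_402 σ U hU T (c • (z : V)) ?_ ψ θ ?_ ?_ (fun a => congrFun hψ a)
    · rw [norm_smul, hc, Complex.norm_real, norm_inv, norm_norm, inv_mul_cancel₀ hn]
    · intro a
      rw [map_smul, hzU, smul_comm]
    · rw [map_smul, hzT, smul_comm]
  · exact stepOut_case2_402 σ U hU T hT y hy0 ψ hy hψ

end Atoms

/-! ## 4. The induction -/

section Main

/-- **The atoms exist** (orthonormal family spanning the space). -/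
theorem atoms_exist402.{u, v} {ι : Type v} (σ : Equiv.Perm ι) :
    ∀ (d : ℕ) (V : Type u) [NormedAddCommGroup V] [InnerProductSpace ℂ V]
      [FiniteDimensional ℂ V], finrank ℂ V = d →
      ∀ (U : ι → Module.End ℂ V) (T : Module.End ℂ V), (∀ a b, Commute (U a) (U b)) →
        (∀ a, T * U a = U (σ a) * T) →
        ∃ (n : Type) (_ : Fintype n) (q : n → V) (χ : n → ι → ℂ) (t : n → ℂ),
          IsAtoms402 σ U T q χ t ∧ Submodule.span ℂ (Set.range q) = ⊤ := by
  intro d
  induction d using Nat.strong_induction_on with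
  | _ d ih =>
    intro V _ _ _ hd U T hU hT
    rcases Nat.eq_zero_or_pos d with h0 | hpos
    · -- the zero space
      have hss : Subsingleton V := by
        rw [h0] at hd
        exact Module.finrank_zero_iff.mp hd
      refine ⟨Empty, inferInstance, fun e => e.elim, fun e => e.elim, fun e => e.elim,
        ⟨?_, ?_, ?_, ?_⟩, ?_⟩
      · rw [orthonormal_iff_ite]
        intro i
        exact i.elim
      · intro w
        simp
      · intro i
        exact i.elim
      · intro i
        exact i.elim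
      · exact Subsingleton.elim _ _
    · -- one step
      obtain ⟨V₁, hV₁, hHU, hHT, m, hm, q₁, χ₁, t₁, hat₁, hsp₁⟩ :=
        stepOut402 σ U hU T hT (hd ▸ hpos)
      have hq₁mem : ∀ j, q₁ j ∈ V₁ := by
        intro j
        rw [← hsp₁]
        exact Submodule.subset_span (Set.mem_range_self j)
      have hlt : finrank ℂ V₁ᗮ < d := by
        have h1 := V₁.finrank_add_finrank_orthogonal
        have h2 : 0 < finrank ℂ V₁ := by
          rw [Module.finrank_pos_iff]
          exact Submodule.nontrivial_iff_ne_bot.mpr hV₁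
        omega
      obtain ⟨n', hn', q', χ', t', hat', hsp'⟩ := ih (finrank ℂ V₁ᗮ) hlt V₁ᗮ rfl
        (fun a => (U a).restrict (hHU a)) (T.restrict hHT)
        (fun a b => by
          apply LinearMap.ext
          intro v
          apply Subtype.ext
          simp only [Module.End.mul_apply, LinearMap.coe_restrict_apply]
          exact congrArg (fun f : Module.End ℂ V => f (v : V)) (hU a b).eq)
        (fun a => by
          apply LinearMap.ext
          intro v
          apply Subtype.ext
          simp only [Module.End.mul_apply, LinearMap.coe_restrict_apply]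
          exact congrArg (fun f : Module.End ℂ V => f (v : V)) (hT a))
      refine ⟨n' ⊕ m, inferInstance, Sum.elim (fun i => (q' i : V)) q₁, Sum.elim χ' χ₁,
        Sum.elim t' t₁, ⟨?_, ?_, ?_, ?_⟩, ?_⟩
      · -- orthonormal
        classical
        have ho' := orthonormal_iff_ite.mp hat'.orth
        have ho₁ := orthonormal_iff_ite.mp hat₁.orth
        rw [orthonormal_iff_ite]
        rintro (i | i) (j | j)
        · simp only [Sum.elim_inl, Sum.inl.injEq]
          rw [← Submodule.coe_inner]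
          exact ho' i j
        · simp only [Sum.elim_inl, Sum.elim_inr, reduceCtorEq, if_false]
          exact Submodule.inner_left_of_mem_orthogonal (hq₁mem j) (q' i).2
        · simp only [Sum.elim_inl, Sum.elim_inr, reduceCtorEq, if_false]
          exact Submodule.inner_right_of_mem_orthogonal (hq₁mem i) (q' j).2
        · simp only [Sum.elim_inr, Sum.inr.injEq]
          exact ho₁ i j
      · -- trace
        intro w
        rw [Fintype.sum_sum_type, Fintype.sum_sum_type]
        simp only [Sum.elim_inl, Sum.elim_inr]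
        rw [← hat₁.trace w, ← hat'.trace w]
        congr 1
        apply Finset.sum_congr rfl
        intro i _
        rw [Submodule.coe_inner, LinearMap.coe_restrict_apply, wordOp_restrict402]
      · -- diag
        rintro (i | i)
        · simp only [Sum.elim_inl]
          rcases hat'.diag i with h | h
          · left; exact h
          · right
            rw [h, Submodule.coe_inner, LinearMap.coe_restrict_apply]
        · simp only [Sum.elim_inr]
          exact hat₁.diag i
      · -- eig
        rintro (i | i) hi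
        · simp only [Sum.elim_inl] at hi ⊢
          obtain ⟨hσ, x, hx, hxe⟩ := hat'.eig i hi
          refine ⟨hσ, (x : V), fun h => hx (Subtype.ext h), fun a => ?_⟩
          have := congrArg Subtype.val (hxe a)
          simpa using this
        · simp only [Sum.elim_inr] at hi ⊢
          exact hat₁.eig i hi
      · -- span
        rw [Set.Sum.elim_range, Submodule.span_union, hsp₁]
        have h1 : Set.range (fun i => (q' i : V)) = V₁ᗮ.subtype '' Set.range q' := by
          rw [← Set.range_comp]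
          rfl
        rw [h1, Submodule.span_image, hsp', Submodule.map_subtype_top, sup_comm]
        exact Submodule.sup_orthogonal_of_hasOrthogonalProjection

end Main

/-! ## 5. The statements -/

section Final

variable {ι : Type*} {V : Type*} [NormedAddCommGroup V] [InnerProductSpace ℂ V]
  [FiniteDimensional ℂ V]

/-- **(A) TWISTED TRACE ATOMS.**  `V` a finite-dimensional inner product space over `ℂ`,
`U : ι → End V` a commuting family, `σ` a permutation of `ι`, `T` an endomorphism with
`T ∘ U a = U (σ a) ∘ T`.  Then there are an orthonormal basis `q` of `V`, characters `χ i`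
and coefficients `t i` (one atom for each basis vector) such that

1. `tr (T ∘ word) = ∑ i, t i · χ i (word)` for EVERY word in the `U a` (no polynomial factors);
2. `t i = 0` or `t i = ⟪q i, T (q i)⟫` (so `∑ |t i| ≤ ∑ |⟪q i, T (q i)⟫|`);
3. if `t i ≠ 0` then `χ i` is `σ`-invariant and is the character of a joint eigenvector of
   the family in `V`. -/
theorem twistedTraceAtoms402 (σ : Equiv.Perm ι) (U : ι → Module.End ℂ V)
    (hU : ∀ a b, Commute (U a) (U b)) (T : Module.End ℂ V)
    (hT : ∀ a, T * U a = U (σ a) * T) :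
    ∃ (n : Type) (_ : Fintype n) (q : OrthonormalBasis n ℂ V) (χ : n → ι → ℂ) (t : n → ℂ),
      (∀ w : List ι, LinearMap.trace ℂ V (T * (w.map U).prod)
          = ∑ i, t i * (w.map (χ i)).prod) ∧
      (∀ i, t i = 0 ∨ t i = ⟪q i, T (q i)⟫_ℂ) ∧
      (∀ i, t i ≠ 0 → (∀ a, χ i (σ a) = χ i a) ∧
          ∃ x : V, x ≠ 0 ∧ ∀ a, U a x = χ i a • x) := by
  obtain ⟨n, hn, q, χ, t, hat, hsp⟩ := atoms_exist402 σ (finrank ℂ V) V rfl U T hU hT
  refine ⟨n, hn, OrthonormalBasis.mk hat.orth hsp.ge, χ, t, ?_, ?_, ?_⟩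
  · intro w
    rw [LinearMap.trace_eq_sum_inner _ (OrthonormalBasis.mk hat.orth hsp.ge), ← hat.trace w]
    simp [Module.End.mul_apply]
  · intro i
    rw [OrthonormalBasis.coe_mk]
    exact hat.diag i
  · exact hat.eig

/-- The untwisted case `σ = 1` (`T` commutes with the family). -/
theorem traceAtoms402 (U : ι → Module.End ℂ V)
    (hU : ∀ a b, Commute (U a) (U b)) (T : Module.End ℂ V)
    (hT : ∀ a, Commute T (U a)) :
    ∃ (n : Type) (_ : Fintype n) (q : OrthonormalBasis n ℂ V) (χ : n → ι → ℂ) (t : n → ℂ),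
      (∀ w : List ι, LinearMap.trace ℂ V (T * (w.map U).prod)
          = ∑ i, t i * (w.map (χ i)).prod) ∧
      (∀ i, t i = 0 ∨ t i = ⟪q i, T (q i)⟫_ℂ) ∧
      (∀ i, t i ≠ 0 → ∃ x : V, x ≠ 0 ∧ ∀ a, U a x = χ i a • x) := by
  obtain ⟨n, hn, q, χ, t, h1, h2, h3⟩ :=
    twistedTraceAtoms402 (1 : Equiv.Perm ι) U hU T (fun a => (hT a).eq)
  exact ⟨n, hn, q, χ, t, h1, h2, fun i hi => (h3 i hi).2⟩

omit [FiniteDimensional ℂ V] in
/-- Summability form of (2): the atoms are dominated by the diagonal coefficients of `T`. -/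
theorem sum_norm_atoms_le402 {n : Type} [Fintype n] (q : OrthonormalBasis n ℂ V)
    (T : Module.End ℂ V) (t : n → ℂ) (h : ∀ i, t i = 0 ∨ t i = ⟪q i, T (q i)⟫_ℂ) :
    ∑ i, ‖t i‖ ≤ ∑ i, ‖⟪q i, T (q i)⟫_ℂ‖ := by
  apply Finset.sum_le_sum
  intro i _
  rcases h i with h0 | h1
  · rw [h0, norm_zero]; exact norm_nonneg _
  · rw [h1]

end Final

end Fermat.Agent.LT.T7.H402
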