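import Mathlib
import Fermat.Agent.LT.T7.H402.TraceAtoms

/-!
# Row LT, tower T7 -- asset T7.C3.A (helper402): twisted trace atoms, MATRIX form

OFF-MAIN, Mathlib + `TraceAtoms.lean`; every proof is complete.

For a consumer who works in coordinates: on a finite-dimensional block with an orthonormal basis
`u` (for a pairing `⟨ , ⟩` linear in the FIRST variable) let the matrix of an operator `X` be
`M_X i j` = the coefficient of `u i` in `X (u j)` (`= ⟨X (u j), u i⟩`).  For a unitary matrix `Q`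
and `q k = ∑ j, Q j k • u j` one has `⟨X (q k), q k⟩ = (Qᴴ * M_X * Q) k k`.
-/

set_option autoImplicit false

open scoped InnerProductSpace ComplexConjugate Matrix
open Module

noncomputable section

namespace Fermat.Agent.LT.T7.H402

section MatrixForm

variable {n : Type} [Fintype n] [DecidableEq n]

/-- The algebra isomorphism `Matrix n n ℂ ≃ End (EuclideanSpace ℂ n)` (standard basis). -/
def matEnd402 : Matrix n n ℂ ≃ₐ[ℂ] Module.End ℂ (EuclideanSpace ℂ n) :=
  Matrix.toLinAlgEquiv (EuclideanSpace.basisFun n ℂ).toBasis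

theorem matEnd_eq402 (A : Matrix n n ℂ) : (matEnd402 A : Module.End ℂ (EuclideanSpace ℂ n))
    = Matrix.toEuclideanLin A := by
  rw [Matrix.toEuclideanLin_eq_toLin_orthonormal]
  rfl

theorem matEnd_apply402 (A : Matrix n n ℂ) (x : EuclideanSpace ℂ n) :
    WithLp.ofLp (matEnd402 A x) = A *ᵥ WithLp.ofLp x := by
  rw [matEnd_eq402]
  rfl

theorem trace_matEnd402 (A : Matrix n n ℂ) :
    LinearMap.trace ℂ (EuclideanSpace ℂ n) (matEnd402 A) = A.trace :=
  Matrix.trace_toLin_eq A _

/-- **(A), matrix form.** -/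
theorem twistedTraceAtomsMatrix402 {ι : Type*} (σ : Equiv.Perm ι) (U : ι → Matrix n n ℂ)
    (hU : ∀ a b, U a * U b = U b * U a) (T : Matrix n n ℂ)
    (hT : ∀ a, T * U a = U (σ a) * T) :
    ∃ (Q : Matrix n n ℂ) (χ : n → ι → ℂ) (t : n → ℂ),
      Q ∈ Matrix.unitaryGroup n ℂ ∧
      (∀ w : List ι, Matrix.trace (T * (w.map U).prod) = ∑ i, t i * (w.map (χ i)).prod) ∧
      (∀ i, t i = 0 ∨ t i = (Qᴴ * T * Q) i i) ∧
      (∀ i, t i ≠ 0 → (∀ a, χ i (σ a) = χ i a) ∧
          ∃ x : n → ℂ, x ≠ 0 ∧ ∀ a, (U a) *ᵥ x = χ i a • x) := by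
  have hU' : ∀ a b, Commute (matEnd402 (U a)) (matEnd402 (U b)) := by
    intro a b
    change matEnd402 (U a) * matEnd402 (U b) = matEnd402 (U b) * matEnd402 (U a)
    rw [← map_mul, ← map_mul, hU]
  have hT' : ∀ a, matEnd402 T * matEnd402 (U a) = matEnd402 (U (σ a)) * matEnd402 T := by
    intro a
    rw [← map_mul, ← map_mul, hT]
  obtain ⟨n', hn', q, χ, t, h1, h2, h3⟩ :=
    twistedTraceAtoms402 σ (fun a => matEnd402 (U a)) hU' (matEnd402 T) hT'
  have hcard : Fintype.card n = Fintype.card n' := by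
    rw [← Module.finrank_eq_card_basis (EuclideanSpace.basisFun n ℂ).toBasis,
      ← Module.finrank_eq_card_basis q.toBasis]
  obtain ⟨e⟩ : Nonempty (n ≃ n') := ⟨Fintype.equivOfCardEq hcard⟩
  obtain ⟨q', hq'⟩ : ∃ q' : OrthonormalBasis n ℂ (EuclideanSpace ℂ n), ∀ k, q' k = q (e k) :=
    ⟨q.reindex e.symm, fun k => by rw [OrthonormalBasis.reindex_apply]; rfl⟩
  obtain ⟨Q, hQ⟩ : ∃ Q : Matrix n n ℂ,
      Q = (EuclideanSpace.basisFun n ℂ).toBasis.toMatrix ⇑q'.toBasis := ⟨_, rfl⟩
  have hQu : Q ∈ Matrix.unitaryGroup n ℂ := by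
    rw [hQ, OrthonormalBasis.coe_toBasis]
    exact (EuclideanSpace.basisFun n ℂ).toMatrix_orthonormalBasis_mem_unitary q'
  have hQ4 : Q * Qᴴ = 1 := by
    rw [hQ, OrthonormalBasis.coe_toBasis]
    exact (EuclideanSpace.basisFun n ℂ).toMatrix_orthonormalBasis_self_mul_conjTranspose q'
  have hQ2 : q'.toBasis.toMatrix ⇑(EuclideanSpace.basisFun n ℂ).toBasis * Q = 1 := by
    rw [hQ]
    exact Basis.toMatrix_mul_toMatrix_flip q'.toBasis (EuclideanSpace.basisFun n ℂ).toBasis
  have hQ3 : q'.toBasis.toMatrix ⇑(EuclideanSpace.basisFun n ℂ).toBasis = Qᴴ := by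
    calc q'.toBasis.toMatrix ⇑(EuclideanSpace.basisFun n ℂ).toBasis
        = q'.toBasis.toMatrix ⇑(EuclideanSpace.basisFun n ℂ).toBasis * (Q * Qᴴ) := by
          rw [hQ4, mul_one]
      _ = (q'.toBasis.toMatrix ⇑(EuclideanSpace.basisFun n ℂ).toBasis * Q) * Qᴴ := by
          rw [mul_assoc]
      _ = Qᴴ := by rw [hQ2, one_mul]
  have hmat : LinearMap.toMatrix q'.toBasis q'.toBasis (matEnd402 T) = Qᴴ * T * Q := by
    rw [← hQ3, hQ]
    have h5 := basis_toMatrix_mul_linearMap_toMatrix_mul_basis_toMatrix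
      q'.toBasis (EuclideanSpace.basisFun n ℂ).toBasis q'.toBasis
      (EuclideanSpace.basisFun n ℂ).toBasis (matEnd402 T)
    have h7 : LinearMap.toMatrix (EuclideanSpace.basisFun n ℂ).toBasis
        (EuclideanSpace.basisFun n ℂ).toBasis (matEnd402 T) = T :=
      LinearMap.toMatrix_toLin _ _ T
    rw [h7] at h5
    exact h5.symm
  refine ⟨Q, fun k => χ (e k), fun k => t (e k), hQu, ?_, ?_, ?_⟩
  · intro w
    have hw : matEnd402 (T * (w.map U).prod)
        = matEnd402 T * (w.map (fun a => matEnd402 (U a))).prod := by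
      rw [map_mul, map_list_prod, List.map_map]
      rfl
    rw [← trace_matEnd402, hw, h1 w]
    exact (Equiv.sum_comp e (fun i => t i * (w.map (χ i)).prod)).symm
  · intro k
    rcases h2 (e k) with h | h
    · left; exact h
    · right
      show t (e k) = _
      rw [h, ← hq' k]
      have h6 := congrFun (congrFun hmat k) k
      rw [← h6, LinearMap.toMatrix_apply, OrthonormalBasis.coe_toBasis,
        OrthonormalBasis.coe_toBasis_repr_apply, OrthonormalBasis.repr_apply_apply]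
  · intro k hk
    obtain ⟨hσ, x, hx, hxe⟩ := h3 (e k) hk
    refine ⟨hσ, WithLp.ofLp x, ?_, ?_⟩
    · intro h
      apply hx
      apply (WithLp.ofLp_injective 2)
      exact h
    · intro a
      rw [← matEnd_apply402, hxe a]
      rfl

end MatrixForm

end Fermat.Agent.LT.T7.H402
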