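import Mathlib
import Fermat.Agent.LT.T6.Spec

/-!
# Row LT, tower T7, asset for `ProdMtCb` (helper402): the convolution algebra of a unimodular
locally compact group -- abstract part

OFF-MAIN.  Mathlib + `T6/Spec.lean` (only `T6.convInt`).  No `sorry`, nothing assumed.

For `T6.convInt μ φ ψ g = ∫ φ h * ψ (h⁻¹ g) dμ(h)`:

* `convInt_anti402` (GELFAND'S TRICK, pointwise, NO integrability, NO continuity): `θ` a measure
  preserving anti-automorphism, `μ` left and inversion invariant, `f₁ ∘ θ = f₁`, `f₂ ∘ θ = f₂`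
  ⟹ `(f₁ ⋆ f₂)(g) = (f₂ ⋆ f₁)(θ g)`;
* `convInt_auto402`: invariance of `f₁ ⋆ f₂` under a measure preserving automorphism fixing
  `f₁`, `f₂`;
* `convInt_left_inv402`, `convInt_right_inv402`: left / right invariance of `f₁ ⋆ f₂`;
* `convInt_smul_left402`, `convInt_smul_right402`, `convInt_smul_measure402`: homogeneity;
* `continuous_convInt402`, `hasCompactSupport_convInt402`: `f₁ ⋆ f₂` is continuous with compact
  support when `f₁`, `f₂` are;
* `convInt_assoc402`: associativity for continuous functions with compact support (Fubini);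
* `map_mulEquiv_eq_self402`: a continuous involutive automorphism of a locally compact second
  countable group preserves every Haar measure.
-/

set_option autoImplicit false
set_option linter.unusedSectionVars false
set_option linter.style.haveILetI false

open MeasureTheory MeasureTheory.Measure
open scoped ENNReal Pointwise

noncomputable section

namespace Fermat.Agent.LT.T7.H402

open Fermat.Agent.LT

/-! ## 1. Invariance properties (no integrability needed) -/

section Inv

variable {G : Type} [Group G] [MeasurableSpace G]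

theorem convInt_apply402 (μ : Measure G) (f₁ f₂ : G → ℂ) (g : G) :
    T6.convInt μ f₁ f₂ g = ∫ h, f₁ h * f₂ (h⁻¹ * g) ∂μ := rfl

/-- An anti-multiplicative map preserves `1`. -/
theorem anti_one402 (θ : G → G) (hmul : ∀ a b, θ (a * b) = θ b * θ a) : θ 1 = 1 := by
  have h := hmul 1 1
  rw [mul_one] at h
  exact (mul_eq_left (a := θ 1)).1 h.symm

/-- An anti-multiplicative map commutes with inversion. -/
theorem anti_inv402 (θ : G → G) (hmul : ∀ a b, θ (a * b) = θ b * θ a) (a : G) :
    θ a⁻¹ = (θ a)⁻¹ := by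
  have h := hmul a⁻¹ a
  rw [inv_mul_cancel, anti_one402 θ hmul] at h
  exact (inv_eq_of_mul_eq_one_right h.symm).symm

/-- **GELFAND'S TRICK.**  `(f₁ ⋆ f₂)(g) = (f₂ ⋆ f₁)(θ g)` for a measure preserving
anti-automorphism `θ` fixing `f₁` and `f₂`, `μ` left invariant and inversion invariant. -/
theorem convInt_anti402 [MeasurableMul G] [MeasurableInv G]
    (μ : Measure G) [μ.IsMulLeftInvariant] [μ.IsInvInvariant]
    (θ : G ≃ᵐ G) (hθ : MeasurePreserving θ μ μ) (hmul : ∀ a b, θ (a * b) = θ b * θ a)
    (f₁ f₂ : G → ℂ) (h₁ : ∀ g, f₁ (θ g) = f₁ g) (h₂ : ∀ g, f₂ (θ g) = f₂ g) (g : G) :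
    T6.convInt μ f₁ f₂ g = T6.convInt μ f₂ f₁ (θ g) := by
  rw [convInt_apply402, convInt_apply402]
  calc ∫ h, f₁ h * f₂ (h⁻¹ * g) ∂μ
      = ∫ h, (fun x => f₁ x * f₂ (θ g * x⁻¹)) (θ h) ∂μ := by
        refine integral_congr_ae (Filter.Eventually.of_forall fun h => ?_)
        simp only
        rw [h₁, ← anti_inv402 θ hmul, ← hmul, h₂]
    _ = ∫ x, f₁ x * f₂ (θ g * x⁻¹) ∂μ :=
        hθ.integral_comp' (fun x => f₁ x * f₂ (θ g * x⁻¹))
    _ = ∫ x, (fun y => f₁ y⁻¹ * f₂ (θ g * y)) x⁻¹ ∂μ := by
        refine integral_congr_ae (Filter.Eventually.of_forall fun h => ?_)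
        simp only [inv_inv]
    _ = ∫ y, f₁ y⁻¹ * f₂ (θ g * y) ∂μ :=
        integral_inv_eq_self (fun y => f₁ y⁻¹ * f₂ (θ g * y)) μ
    _ = ∫ y, (fun u => f₂ u * f₁ (u⁻¹ * θ g)) (θ g * y) ∂μ := by
        refine integral_congr_ae (Filter.Eventually.of_forall fun h => ?_)
        simp only [mul_inv_rev, inv_mul_cancel_right]
        rw [mul_comm]
    _ = ∫ u, f₂ u * f₁ (u⁻¹ * θ g) ∂μ :=
        integral_mul_left_eq_self (fun u => f₂ u * f₁ (u⁻¹ * θ g)) (θ g)

/-- `f₁ ⋆ f₂` is invariant under a measure preserving automorphism fixing `f₁` and `f₂`. -/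
theorem convInt_auto402 (μ : Measure G)
    (e : G ≃ᵐ G) (he : MeasurePreserving e μ μ) (hmul : ∀ a b, e (a * b) = e a * e b)
    (f₁ f₂ : G → ℂ) (h₁ : ∀ g, f₁ (e g) = f₁ g) (h₂ : ∀ g, f₂ (e g) = f₂ g) (g : G) :
    T6.convInt μ f₁ f₂ (e g) = T6.convInt μ f₁ f₂ g := by
  rw [convInt_apply402, convInt_apply402]
  have hinv : ∀ a : G, e a⁻¹ = (e a)⁻¹ := by
    intro a
    have h1 : e 1 = 1 := by
      have h := hmul 1 1
      rw [mul_one] at h
      exact (mul_eq_left (a := e 1)).1 h.symm
    have h := hmul a⁻¹ a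
    rw [inv_mul_cancel, h1] at h
    exact (inv_eq_of_mul_eq_one_left h.symm).symm
  calc ∫ h, f₁ h * f₂ (h⁻¹ * e g) ∂μ
      = ∫ h, (fun x => f₁ x * f₂ (x⁻¹ * e g)) (e h) ∂μ :=
        (he.integral_comp' (fun x => f₁ x * f₂ (x⁻¹ * e g))).symm
    _ = ∫ h, f₁ h * f₂ (h⁻¹ * g) ∂μ := by
        refine integral_congr_ae (Filter.Eventually.of_forall fun h => ?_)
        simp only
        rw [h₁, ← hinv, ← hmul, h₂]

/-- `f₁ ⋆ f₂` is left invariant under `k` when `f₁` is. -/
theorem convInt_left_inv402 [MeasurableMul G] (μ : Measure G) [μ.IsMulLeftInvariant]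
    (f₁ f₂ : G → ℂ) (k : G) (h : ∀ g, f₁ (k * g) = f₁ g) (g : G) :
    T6.convInt μ f₁ f₂ (k * g) = T6.convInt μ f₁ f₂ g := by
  rw [convInt_apply402, convInt_apply402]
  calc ∫ x, f₁ x * f₂ (x⁻¹ * (k * g)) ∂μ
      = ∫ x, (fun y => f₁ y * f₂ (y⁻¹ * (k * g))) (k * x) ∂μ :=
        (integral_mul_left_eq_self (fun y => f₁ y * f₂ (y⁻¹ * (k * g))) k).symm
    _ = ∫ x, f₁ x * f₂ (x⁻¹ * g) ∂μ := by
        refine integral_congr_ae (Filter.Eventually.of_forall fun x => ?_)
        simp only
        rw [h, mul_inv_rev, mul_assoc, inv_mul_cancel_left]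

/-- `f₁ ⋆ f₂` is right invariant under `k` when `f₂` is. -/
theorem convInt_right_inv402 (μ : Measure G)
    (f₁ f₂ : G → ℂ) (k : G) (h : ∀ g, f₂ (g * k) = f₂ g) (g : G) :
    T6.convInt μ f₁ f₂ (g * k) = T6.convInt μ f₁ f₂ g := by
  rw [convInt_apply402, convInt_apply402]
  refine integral_congr_ae (Filter.Eventually.of_forall fun x => ?_)
  simp only
  rw [← mul_assoc, h]

theorem convInt_smul_left402 (μ : Measure G) (c : ℂ) (f₁ f₂ : G → ℂ) :
    T6.convInt μ (fun x => c * f₁ x) f₂ = fun g => c * T6.convInt μ f₁ f₂ g := by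
  funext g
  rw [convInt_apply402, convInt_apply402, ← integral_const_mul]
  refine integral_congr_ae (Filter.Eventually.of_forall fun x => ?_)
  simp only
  ring

theorem convInt_smul_right402 (μ : Measure G) (c : ℂ) (f₁ f₂ : G → ℂ) :
    T6.convInt μ f₁ (fun x => c * f₂ x) = fun g => c * T6.convInt μ f₁ f₂ g := by
  funext g
  rw [convInt_apply402, convInt_apply402, ← integral_const_mul]
  refine integral_congr_ae (Filter.Eventually.of_forall fun x => ?_)
  simp only
  ring

theorem convInt_smul_measure402 (μ : Measure G) (c : ℝ≥0∞) (f₁ f₂ : G → ℂ) (g : G) :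
    T6.convInt (c • μ) f₁ f₂ g = (c.toReal : ℂ) * T6.convInt μ f₁ f₂ g := by
  rw [convInt_apply402, convInt_apply402, integral_smul_measure]
  rw [Complex.real_smul]

end Inv

/-! ## 2. Continuity, compact support, associativity -/

section Top

variable {G : Type} [Group G] [TopologicalSpace G] [IsTopologicalGroup G]
  [LocallyCompactSpace G] [SecondCountableTopology G] [MeasurableSpace G] [BorelSpace G]

/-- The convolution of a continuous function with compact support and a continuous function is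
continuous. -/
theorem continuous_convInt402 (μ : Measure G) [IsFiniteMeasureOnCompacts μ]
    {f₁ f₂ : G → ℂ} (hf₁ : Continuous f₁) (hc₁ : HasCompactSupport f₁) (hf₂ : Continuous f₂) :
    Continuous (T6.convInt μ f₁ f₂) := by
  have hset : T6.convInt μ f₁ f₂
      = fun g => ∫ h in tsupport f₁, (fun g h => f₁ h * f₂ (h⁻¹ * g)) g h ∂μ := by
    funext g
    rw [convInt_apply402]
    symm
    apply setIntegral_eq_integral_of_forall_compl_eq_zero
    intro x hx
    have : f₁ x = 0 := image_eq_zero_of_notMem_tsupport hx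
    simp [this]
  rw [hset]
  apply continuous_parametric_integral_of_continuous _ hc₁
  simp only [Function.uncurry_def]
  fun_prop

/-- The convolution of two functions with compact support has compact support. -/
theorem hasCompactSupport_convInt402 (μ : Measure G)
    {f₁ f₂ : G → ℂ} (hc₁ : HasCompactSupport f₁) (hc₂ : HasCompactSupport f₂) :
    HasCompactSupport (T6.convInt μ f₁ f₂) := by
  refine HasCompactSupport.intro (hc₁.isCompact.mul hc₂.isCompact) ?_
  intro g hg
  rw [convInt_apply402]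
  refine integral_eq_zero_of_ae (Filter.Eventually.of_forall fun h => ?_)
  simp only [Pi.zero_apply]
  by_cases h1 : h ∈ tsupport f₁
  · have h2 : h⁻¹ * g ∉ tsupport f₂ := by
      intro h2
      apply hg
      refine ⟨h, h1, h⁻¹ * g, h2, ?_⟩
      simp
    rw [image_eq_zero_of_notMem_tsupport h2, mul_zero]
  · rw [image_eq_zero_of_notMem_tsupport h1, zero_mul]

/-- **ASSOCIATIVITY** of the convolution of continuous functions with compact support. -/
theorem convInt_assoc402 (μ : Measure G) [IsHaarMeasure μ]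
    {f₁ f₂ f₃ : G → ℂ} (hf₁ : Continuous f₁) (hc₁ : HasCompactSupport f₁)
    (hf₂ : Continuous f₂) (hc₂ : HasCompactSupport f₂) (hf₃ : Continuous f₃) :
    T6.convInt μ (T6.convInt μ f₁ f₂) f₃ = T6.convInt μ f₁ (T6.convInt μ f₂ f₃) := by
  funext g
  -- the integrand on `G × G`
  set F : G → G → ℂ := fun h a => f₁ a * f₂ (a⁻¹ * h) * f₃ (h⁻¹ * g) with hF
  have hFc : Continuous (Function.uncurry F) := by
    simp only [hF, Function.uncurry_def]
    fun_prop
  have hFs : HasCompactSupport (Function.uncurry F) := by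
    refine HasCompactSupport.intro
      (((hc₁.isCompact.mul hc₂.isCompact)).prod hc₁.isCompact) ?_
    rintro ⟨h, a⟩ hx
    simp only [Function.uncurry_apply_pair, hF]
    by_cases h1 : a ∈ tsupport f₁
    · have h2 : a⁻¹ * h ∉ tsupport f₂ := by
        intro h2
        apply hx
        refine ⟨⟨a, h1, a⁻¹ * h, h2, ?_⟩, h1⟩
        simp
      rw [image_eq_zero_of_notMem_tsupport h2, mul_zero, zero_mul]
    · rw [image_eq_zero_of_notMem_tsupport h1, zero_mul, zero_mul]
  have hFi : Integrable (Function.uncurry F) (μ.prod μ) :=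
    hFc.integrable_of_hasCompactSupport hFs
  calc T6.convInt μ (T6.convInt μ f₁ f₂) f₃ g
      = ∫ h, (∫ a, F h a ∂μ) ∂μ := by
        rw [convInt_apply402]
        refine integral_congr_ae (Filter.Eventually.of_forall fun h => ?_)
        simp only [hF]
        rw [convInt_apply402, ← integral_mul_const]
    _ = ∫ a, (∫ h, F h a ∂μ) ∂μ := integral_integral_swap hFi
    _ = T6.convInt μ f₁ (T6.convInt μ f₂ f₃) g := by
        rw [convInt_apply402]
        refine integral_congr_ae (Filter.Eventually.of_forall fun a => ?_)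
        simp only [hF]
        rw [convInt_apply402]
        have h1 : ∫ h, f₁ a * f₂ (a⁻¹ * h) * f₃ (h⁻¹ * g) ∂μ
            = f₁ a * ∫ h, f₂ (a⁻¹ * h) * f₃ (h⁻¹ * g) ∂μ := by
          rw [← integral_const_mul]
          refine integral_congr_ae (Filter.Eventually.of_forall fun h => ?_)
          simp only
          ring
        rw [h1]
        congr 1
        calc ∫ h, f₂ (a⁻¹ * h) * f₃ (h⁻¹ * g) ∂μ
            = ∫ h, (fun x => f₂ (a⁻¹ * x) * f₃ (x⁻¹ * g)) (a * h) ∂μ :=
              (integral_mul_left_eq_self (fun x => f₂ (a⁻¹ * x) * f₃ (x⁻¹ * g)) a).symm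
          _ = ∫ h, f₂ h * f₃ (h⁻¹ * (a⁻¹ * g)) ∂μ := by
              refine integral_congr_ae (Filter.Eventually.of_forall fun h => ?_)
              simp only
              rw [inv_mul_cancel_left, mul_inv_rev, mul_assoc]

/-- **A continuous involutive automorphism preserves every Haar measure.** -/
theorem map_mulEquiv_eq_self402 [T2Space G] (e : G ≃* G) (he : Continuous e)
    (hinv : ∀ x, e (e x) = x) (μ : Measure G) [IsHaarMeasure μ] : map e μ = μ := by
  have hsymm : (e.symm : G → G) = e := by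
    funext x
    rw [MulEquiv.symm_apply_eq, hinv]
  have hes : Continuous e.symm := by rw [hsymm]; exact he
  haveI : IsHaarMeasure (map e μ) := e.isHaarMeasure_map μ he hes
  let c : ℝ≥0∞ := haarScalarFactor (map e μ) μ
  have hc : map e μ = c • μ := isMulLeftInvariant_eq_smul_of_innerRegular (map e μ) μ
  have h2 : map e (map e μ) = c ^ 2 • μ := by
    rw [hc, Measure.map_smul, hc, smul_smul, pow_two]
  have μeq : μ = c ^ 2 • μ := by
    rw [map_map he.measurable he.measurable] at h2
    have hid : (e : G → G) ∘ e = id := funext hinv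
    rw [hid, Measure.map_id] at h2
    exact h2
  have K : TopologicalSpace.PositiveCompacts G := Classical.arbitrary _
  have h3 : c ^ 2 * μ K = 1 ^ 2 * μ K := by
    conv_rhs => rw [μeq]
    simp
  have h4 : c ^ 2 = 1 ^ 2 :=
    (ENNReal.mul_left_inj (measure_pos_of_nonempty_interior _ K.interior_nonempty).ne'
          K.isCompact.measure_lt_top.ne).1 h3
  have h5 : c = 1 := (ENNReal.pow_right_strictMono two_ne_zero).injective h4
  rw [hc, h5, one_smul]

end Top

end Fermat.Agent.LT.T7.H402

end
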