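import Mathlib
import Fermat.Agent.LT.T6.Spec
import Fermat.Agent.LT.T6.H8.Unimod
import Fermat.Agent.LT.T7.H402.ConvAlg

/-!
# Row LT, tower T7, asset for `ProdMtCb` (helper402): the bi-`U(2)`-invariant functions on
`GL₂(ℂ)` COMMUTE under convolution (Gelfand pair `(GL₂(ℂ), U(2))`)

OFF-MAIN.  Mathlib + `T6/Spec.lean` (only `T6.convInt`) + `T6/H8/Unimod.lean` (helper8,
Mathlib only: unimodularity of `GL₂(ℂ)`).  No `sorry`, nothing assumed.

* `IsBiU2_402 f`: `f (k₁ g k₂) = f g` for `k₁ k₁ᴴ = 1`, `k₂ k₂ᴴ = 1` (the clause of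
  `H893.ArchOk893`, verbatim);
* `exists_unitary_star402`: for every `g ∈ GL₂(ℂ)` there is a unitary `u` with `gᴴ = u g u`
  (polar decomposition `g = k p`, `u = k⁻¹`; the square root `p` of `gᴴ g` is EXPLICIT for
  `2 × 2` matrices: `p = (gᴴ g + |det g|) / √(tr gᴴ g + 2 |det g|)`, Cayley-Hamilton);
* `biU2_star402`: a bi-`U(2)`-invariant function is invariant under `g ↦ gᴴ`;
* `map_star_GL2C402`: `g ↦ gᴴ` preserves every Haar measure of `GL₂(ℂ)`;
* **`convInt_comm_GL2C402`**: `f₁ ⋆ f₂ = f₂ ⋆ f₁` for ALL bi-`U(2)`-invariant `f₁`, `f₂`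
  (no continuity, no integrability);
* `biU2_convInt402`: `f₁ ⋆ f₂` is bi-`U(2)`-invariant when `f₁` is left and `f₂` is right
  invariant.
-/

set_option autoImplicit false
set_option linter.unusedSectionVars false
set_option linter.style.haveILetI false

open MeasureTheory MeasureTheory.Measure
open scoped ENNReal Matrix

noncomputable section

namespace Fermat.Agent.LT.T7.H402

open Fermat.Agent.LT

/-- Bi-`U(2)`-invariance (the form of `H893.ArchOk893`). -/
def IsBiU2_402 (f : GL (Fin 2) ℂ → ℂ) : Prop :=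
  ∀ k₁ k₂ g : GL (Fin 2) ℂ,
    (k₁ : Matrix (Fin 2) (Fin 2) ℂ) * (k₁ : Matrix (Fin 2) (Fin 2) ℂ).conjTranspose = 1 →
    (k₂ : Matrix (Fin 2) (Fin 2) ℂ) * (k₂ : Matrix (Fin 2) (Fin 2) ℂ).conjTranspose = 1 →
    f (k₁ * g * k₂) = f g

/-! ## 1. The polar decomposition of `GL₂(ℂ)`, explicit -/

/-- Cayley-Hamilton for `2 × 2` matrices. -/
theorem cayley_two402 (A : Matrix (Fin 2) (Fin 2) ℂ) :
    A * A = A.trace • A - A.det • (1 : Matrix (Fin 2) (Fin 2) ℂ) := by
  ext i j
  fin_cases i <;> fin_cases j <;>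
    simp [Matrix.mul_apply, Fin.sum_univ_two, Matrix.det_fin_two, Matrix.trace_fin_two] <;> ring

/-- The explicit square root: if `s² = det A` and `t² = tr A + 2 s`, `t ≠ 0`, then
`P = (A + s) / t` satisfies `P² = A`. -/
theorem sqrt_two402 (A : Matrix (Fin 2) (Fin 2) ℂ) (s t : ℂ) (hs : s * s = A.det)
    (ht : t * t = A.trace + 2 * s) (ht0 : t ≠ 0) :
    (t⁻¹ • (A + s • (1 : Matrix (Fin 2) (Fin 2) ℂ))) * (t⁻¹ • (A + s • 1)) = A := by
  have hCH := cayley_two402 A
  have h1 : (A + s • (1 : Matrix (Fin 2) (Fin 2) ℂ)) * (A + s • 1) = (t * t) • A := by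
    rw [add_mul, mul_add, mul_add, hCH, ht, ← hs]
    simp only [Matrix.mul_smul, Matrix.smul_mul, Matrix.mul_one, Matrix.one_mul, smul_smul]
    module
  rw [Matrix.smul_mul, Matrix.mul_smul, h1, smul_smul, smul_smul]
  have : t⁻¹ * t⁻¹ * (t * t) = 1 := by field_simp
  rw [this, one_smul]

/-- `tr (Mᴴ M)` has non-negative real part. -/
theorem trace_re_nonneg402 (M : Matrix (Fin 2) (Fin 2) ℂ) : 0 ≤ ((Mᴴ * M).trace).re := by
  rw [Matrix.trace_fin_two]
  simp only [Matrix.mul_apply, Matrix.conjTranspose_apply, Fin.sum_univ_two, Complex.add_re,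
    Complex.mul_re, Complex.star_def, Complex.conj_re, Complex.conj_im]
  nlinarith [mul_self_nonneg (M 0 0).re, mul_self_nonneg (M 0 0).im, mul_self_nonneg (M 1 0).re,
    mul_self_nonneg (M 1 0).im, mul_self_nonneg (M 0 1).re, mul_self_nonneg (M 0 1).im,
    mul_self_nonneg (M 1 1).re, mul_self_nonneg (M 1 1).im]

/-- `tr (Mᴴ M)` is real. -/
theorem trace_real402 (M : Matrix (Fin 2) (Fin 2) ℂ) :
    (Mᴴ * M).trace = ((((Mᴴ * M).trace).re : ℝ) : ℂ) := by
  have hH : (Mᴴ * M).IsHermitian := Matrix.isHermitian_conjTranspose_mul_self M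
  have h0 := hH.coe_re_apply_self 0
  have h1 := hH.coe_re_apply_self 1
  rw [Matrix.trace_fin_two, Complex.add_re, Complex.ofReal_add]
  simp only [RCLike.re_to_complex, Complex.coe_algebraMap] at h0 h1
  rw [h0, h1]

/-- **Polar decomposition, in the form needed**: a Hermitian invertible square root of
`gᴴ g`. -/
theorem exists_sqrt_star_mul402 (g : GL (Fin 2) ℂ) :
    ∃ p : GL (Fin 2) ℂ, star p = p ∧ p * p = star g * g := by
  set M : Matrix (Fin 2) (Fin 2) ℂ := (g : Matrix (Fin 2) (Fin 2) ℂ) with hM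
  set A : Matrix (Fin 2) (Fin 2) ℂ := Mᴴ * M with hA
  have hdet : M.det ≠ 0 := by
    have := g.isUnit
    exact ((Matrix.isUnit_iff_isUnit_det _).mp this).ne_zero
  set s : ℝ := ‖M.det‖ with hs
  have hs0 : 0 < s := norm_pos_iff.mpr hdet
  set x : ℝ := (A.trace).re + 2 * s with hx
  have hx0 : 0 < x := by
    have := trace_re_nonneg402 M
    rw [hx]
    linarith
  set t : ℝ := Real.sqrt x with ht
  have ht0 : 0 < t := Real.sqrt_pos.mpr hx0
  have htt : t * t = x := Real.mul_self_sqrt hx0.le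
  have hAdet : ((s : ℂ)) * (s : ℂ) = A.det := by
    rw [hA, Matrix.det_mul, Matrix.det_conjTranspose, Complex.star_def, Complex.conj_mul', hs,
      pow_two]
  have hAtr : ((t : ℂ)) * (t : ℂ) = A.trace + 2 * (s : ℂ) := by
    rw [← Complex.ofReal_mul, htt, hx, trace_real402 M]
    push_cast
    rw [← hA]
    simp
  have htc : (t : ℂ) ≠ 0 := Complex.ofReal_ne_zero.mpr ht0.ne'
  set P : Matrix (Fin 2) (Fin 2) ℂ := (t : ℂ)⁻¹ • (A + (s : ℂ) • 1) with hP
  have hPP : P * P = A := sqrt_two402 A s t hAdet hAtr htc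
  have hPdet : P.det ≠ 0 := by
    intro h0
    have h1 : (P * P).det = 0 := by rw [Matrix.det_mul, h0, mul_zero]
    rw [hPP, ← hAdet] at h1
    have hsc : (s : ℂ) ≠ 0 := Complex.ofReal_ne_zero.mpr hs0.ne'
    exact mul_ne_zero hsc hsc h1
  have hAH : Aᴴ = A := Matrix.isHermitian_conjTranspose_mul_self M
  have hPH : Pᴴ = P := by
    rw [hP, Matrix.conjTranspose_smul, Matrix.conjTranspose_add, Matrix.conjTranspose_smul,
      Matrix.conjTranspose_one, hAH]
    simp
  refine ⟨Matrix.GeneralLinearGroup.mkOfDetNeZero P hPdet, ?_, ?_⟩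
  · apply Units.ext
    rw [Units.coe_star, Matrix.star_eq_conjTranspose]
    exact hPH
  · apply Units.ext
    rw [Units.val_mul, Units.val_mul, Units.coe_star, Matrix.star_eq_conjTranspose]
    exact hPP

/-- **For every `g ∈ GL₂(ℂ)` there is a unitary `u` with `gᴴ = u g u`.** -/
theorem exists_unitary_star402 (g : GL (Fin 2) ℂ) :
    ∃ u : GL (Fin 2) ℂ,
      (u : Matrix (Fin 2) (Fin 2) ℂ) * (u : Matrix (Fin 2) (Fin 2) ℂ).conjTranspose = 1 ∧
      star g = u * g * u := by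
  obtain ⟨p, hp, hpp⟩ := exists_sqrt_star_mul402 g
  -- `k = g p⁻¹`, `u = star k = k⁻¹`
  set k : GL (Fin 2) ℂ := g * p⁻¹ with hk
  have hsk : star k = p⁻¹ * star g := by
    rw [hk, star_mul, star_inv, hp]
  have hunit : star k * k = 1 := by
    rw [hsk, hk]
    calc p⁻¹ * star g * (g * p⁻¹) = p⁻¹ * (star g * g) * p⁻¹ := by group
      _ = 1 := by rw [← hpp]; group
  have hg : g = k * p := by rw [hk]; group
  refine ⟨star k, ?_, ?_⟩
  · have h1 : ((star k * star (star k) : GL (Fin 2) ℂ) : Matrix (Fin 2) (Fin 2) ℂ) = 1 := by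
      rw [star_star, hunit]
      rfl
    rw [Units.val_mul, Units.coe_star (star k), Matrix.star_eq_conjTranspose] at h1
    exact h1
  · calc star g = star p * star k := by conv_lhs => rw [hg, star_mul]
      _ = (star k * k) * p * star k := by rw [hunit, one_mul, hp]
      _ = star k * (k * p) * star k := by group
      _ = star k * g * star k := by rw [← hg]

/-- A bi-`U(2)`-invariant function is invariant under `g ↦ gᴴ`. -/
theorem biU2_star402 {f : GL (Fin 2) ℂ → ℂ} (hf : IsBiU2_402 f) (g : GL (Fin 2) ℂ) :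
    f (star g) = f g := by
  obtain ⟨u, hu, hg⟩ := exists_unitary_star402 g
  rw [hg]
  exact hf u u g hu hu

/-! ## 2. The measure -/

section Meas

variable [MeasurableSpace (GL (Fin 2) ℂ)] [BorelSpace (GL (Fin 2) ℂ)]

/-- `g ↦ (gᴴ)⁻¹` as an automorphism of `GL₂(ℂ)`. -/
def invStar402 : GL (Fin 2) ℂ ≃* GL (Fin 2) ℂ where
  toFun g := star g⁻¹
  invFun g := star g⁻¹
  left_inv g := by simp
  right_inv g := by simp
  map_mul' a b := by simp [mul_inv_rev, star_mul]

theorem invStar402_apply (g : GL (Fin 2) ℂ) : invStar402 g = star g⁻¹ := rfl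

/-- `g ↦ gᴴ` as a homeomorphism of `GL₂(ℂ)`. -/
def starHomeo402 : GL (Fin 2) ℂ ≃ₜ GL (Fin 2) ℂ where
  toFun := star
  invFun := star
  left_inv := star_star
  right_inv := star_star
  continuous_toFun := continuous_star
  continuous_invFun := continuous_star

theorem starHomeo402_apply (g : GL (Fin 2) ℂ) : starHomeo402 g = star g := rfl

/-- Every Haar measure of `GL₂(ℂ)` is inversion invariant (helper8). -/
theorem isInvInvariant_GL2C402 (μ : Measure (GL (Fin 2) ℂ)) [IsHaarMeasure μ] :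
    μ.IsInvInvariant :=
  ⟨(T6.H8.rightInv_GL2C8 μ).2⟩

/-- `g ↦ (gᴴ)⁻¹` preserves every Haar measure of `GL₂(ℂ)`. -/
theorem map_invStar_GL2C402 (μ : Measure (GL (Fin 2) ℂ)) [IsHaarMeasure μ] :
    map invStar402 μ = μ := by
  haveI := T6.H8.locallyCompactSpace_GL2C8
  haveI := T6.H8.secondCountableTopology_GL2C8
  refine map_mulEquiv_eq_self402 invStar402 ?_ ?_ μ
  · exact continuous_star.comp continuous_inv
  · intro x
    simp [invStar402_apply]

/-- **`g ↦ gᴴ` preserves every Haar measure of `GL₂(ℂ)`.** -/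
theorem map_star_GL2C402 (μ : Measure (GL (Fin 2) ℂ)) [IsHaarMeasure μ] :
    map (star : GL (Fin 2) ℂ → GL (Fin 2) ℂ) μ = μ := by
  have h1 : (star : GL (Fin 2) ℂ → GL (Fin 2) ℂ) = (fun x => x⁻¹) ∘ invStar402 := by
    funext g
    simp [invStar402_apply]
  have hm : Measurable (invStar402 : GL (Fin 2) ℂ → GL (Fin 2) ℂ) :=
    (continuous_star.comp continuous_inv).measurable
  rw [h1, ← map_map continuous_inv.measurable hm, map_invStar_GL2C402 μ]
  exact (T6.H8.rightInv_GL2C8 μ).2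

theorem measurePreserving_star402 (μ : Measure (GL (Fin 2) ℂ)) [IsHaarMeasure μ] :
    MeasurePreserving (starHomeo402.toMeasurableEquiv) μ μ :=
  ⟨starHomeo402.toMeasurableEquiv.measurable, map_star_GL2C402 μ⟩

/-! ## 3. Commutativity -/

/-- The convolution of a left `U(2)`-invariant and a right `U(2)`-invariant function is
bi-`U(2)`-invariant. -/
theorem biU2_convInt402 (μ : Measure (GL (Fin 2) ℂ)) [IsHaarMeasure μ]
    {f₁ f₂ : GL (Fin 2) ℂ → ℂ} (h₁ : IsBiU2_402 f₁) (h₂ : IsBiU2_402 f₂) :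
    IsBiU2_402 (T6.convInt μ f₁ f₂) := by
  intro k₁ k₂ g hk₁ hk₂
  have hone : ((1 : GL (Fin 2) ℂ) : Matrix (Fin 2) (Fin 2) ℂ)
      * ((1 : GL (Fin 2) ℂ) : Matrix (Fin 2) (Fin 2) ℂ).conjTranspose = 1 := by
    simp
  rw [convInt_right_inv402 μ f₁ f₂ k₂ (fun x => by
    have := h₂ 1 k₂ x hone hk₂
    rwa [one_mul] at this)]
  exact convInt_left_inv402 μ f₁ f₂ k₁ (fun x => by
    have := h₁ k₁ 1 x hk₁ hone
    rwa [mul_one] at this) g

/-- **GELFAND: the bi-`U(2)`-invariant functions on `GL₂(ℂ)` commute under convolution.**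
No continuity, no integrability. -/
theorem convInt_comm_GL2C402 (μ : Measure (GL (Fin 2) ℂ)) [IsHaarMeasure μ]
    {f₁ f₂ : GL (Fin 2) ℂ → ℂ} (h₁ : IsBiU2_402 f₁) (h₂ : IsBiU2_402 f₂) :
    T6.convInt μ f₁ f₂ = T6.convInt μ f₂ f₁ := by
  haveI := T6.H8.locallyCompactSpace_GL2C8
  haveI := T6.H8.secondCountableTopology_GL2C8
  haveI := isInvInvariant_GL2C402 μ
  funext g
  have h := convInt_anti402 μ starHomeo402.toMeasurableEquiv (measurePreserving_star402 μ)
    (fun a b => star_mul a b) f₁ f₂ (fun x => biU2_star402 h₁ x) (fun x => biU2_star402 h₂ x) g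
  rw [h]
  exact biU2_star402 (biU2_convInt402 μ h₂ h₁) g

end Meas

end Fermat.Agent.LT.T7.H402

end
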